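import Mathlib

/-!
# S18 / b4 — step 5: the closed fibre of a finite free algebra with unit discriminant

`A` a local ring with maximal ideal `𝔪`, `B` an `A`-algebra which is free of finite rank with
basis `b` whose discriminant is a unit.

* `trace_mem_maximalIdeal_of_pow_mem` : if `y ^ N ∈ 𝔪 B` then `Tr(y) ∈ 𝔪`.
* `mem_map_maximalIdeal_of_pow_mem` : `B / 𝔪 B` is reduced: `x ^ N ∈ 𝔪 B → x ∈ 𝔪 B`.
-/

set_option autoImplicit false

namespace Fermat.Agent.S18.H298

open Module Matrix IsLocalRing

section Reduced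

variable {A B : Type*} [CommRing A] [IsLocalRing A] [CommRing B] [Algebra A B]
  {n : ℕ} (b : Basis (Fin n) A B)

include b in
theorem trace_mem_maximalIdeal_of_pow_mem (y : B) (N : ℕ)
    (hy : y ^ N ∈ (maximalIdeal A).map (algebraMap A B)) :
    Algebra.trace A B y ∈ maximalIdeal A := by
  have : Module.Free A B := Module.Free.of_basis b
  have : Module.Finite A B := Module.Finite.of_basis b
  let _ := Ideal.Quotient.field (maximalIdeal A)
  have h := Algebra.trace_quotient_mk (R := A) (S := B) y
  rw [← Ideal.Quotient.eq_zero_iff_mem, ← h]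
  have hnil : IsNilpotent (Ideal.Quotient.mk ((maximalIdeal A).map (algebraMap A B)) y) :=
    ⟨N, by rw [← map_pow]; exact Ideal.Quotient.eq_zero_iff_mem.mpr hy⟩
  have h2 := LinearMap.isNilpotent_trace_of_isNilpotent
    (hnil.map (Algebra.lmul (A ⧸ maximalIdeal A) (B ⧸ (maximalIdeal A).map (algebraMap A B))))
  rw [Algebra.trace_apply]
  exact h2.eq_zero

/-- The closed fibre `B / 𝔪 B` is reduced when the discriminant is a unit. -/
theorem mem_map_maximalIdeal_of_pow_mem (hD : IsUnit (Algebra.discr A b)) (x : B) (N : ℕ)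
    (hx : x ^ N ∈ (maximalIdeal A).map (algebraMap A B)) :
    x ∈ (maximalIdeal A).map (algebraMap A B) := by
  classical
  have htr : ∀ j, Algebra.trace A B (x * b j) ∈ maximalIdeal A := fun j =>
    trace_mem_maximalIdeal_of_pow_mem b (x * b j) N
      (by rw [mul_pow]; exact Ideal.mul_mem_right _ _ hx)
  set G := Algebra.traceMatrix A b with hG
  have hGdet : IsUnit G.det := by rw [hG, ← Algebra.discr_def]; exact hD
  set v : Fin n → A := fun i => b.repr x i with hv
  have hGv : ∀ j, (G *ᵥ v) j = Algebra.trace A B (x * b j) := by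
    intro j
    have hxs : x = ∑ i, v i • b i := (b.sum_repr x).symm
    conv_rhs => rw [hxs, Finset.sum_mul, map_sum]
    simp only [Matrix.mulVec, dotProduct, hG, Algebra.traceMatrix_apply, Algebra.traceForm_apply]
    refine Finset.sum_congr rfl fun i _ => ?_
    rw [smul_mul_assoc, map_smul, smul_eq_mul, mul_comm (b i) (b j), mul_comm]
  have hvG : v = G⁻¹ *ᵥ (G *ᵥ v) := by
    rw [Matrix.mulVec_mulVec, Matrix.nonsing_inv_mul _ hGdet, Matrix.one_mulVec]
  have hvi : ∀ i, v i ∈ maximalIdeal A := by
    intro i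
    rw [hvG]
    simp only [Matrix.mulVec, dotProduct]
    refine Ideal.sum_mem _ fun j _ => Ideal.mul_mem_left _ _ ?_
    have := hGv j
    simp only [Matrix.mulVec, dotProduct] at this
    rw [this]
    exact htr j
  rw [← b.sum_repr x]
  refine Ideal.sum_mem _ fun i _ => ?_
  rw [Algebra.smul_def]
  exact Ideal.mul_mem_right _ _ (Ideal.mem_map_of_mem _ (hvi i))

end Reduced

end Fermat.Agent.S18.H298
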