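import Mathlib

/-!
# S18 / b4 — step 6: lifting idempotents of the generic point of the special fibre

Abstract form.  `A` a noetherian local domain, `w ∈ A` prime, `A / w` a principal ideal ring,
`B` an `A`-algebra such that

* `hT` : `B / w B` has no `A / w`-torsion,
* `hR` : `B / 𝔪 B` is reduced (squares suffice).

Then for `s ∉ (w)` and `x ∈ B` with `x ^ 2 ≡ s x mod w B` there is `e ∈ B` with
`x ≡ s e mod w B` (so `e` is an idempotent modulo `w` and `e = x / s` in `B_(w) / w`).
-/

set_option autoImplicit false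

namespace Fermat.Agent.S18.H298

open IsLocalRing

section Gen

variable {A : Type*} [CommRing A] [IsLocalRing A]

/-- If `A / w` is a principal ideal ring, the maximal ideal of `A` is generated by `w` and one
more element `t`. -/
theorem exists_maximalIdeal_generator (w : A) [IsPrincipalIdealRing (A ⧸ Ideal.span {w})] :
    ∃ t ∈ maximalIdeal A, ∀ a ∈ maximalIdeal A, ∃ c d : A, a = t * c + w * d := by
  set I : Ideal A := Ideal.span {w} with hI
  set J : Ideal (A ⧸ I) := (maximalIdeal A).map (Ideal.Quotient.mk I) with hJ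
  obtain ⟨g, hg⟩ := (IsPrincipalIdealRing.principal J).principal
  have hgJ : g ∈ J := by rw [hg]; exact Submodule.mem_span_singleton_self g
  obtain ⟨t, ht, rfl⟩ :=
    (Ideal.mem_map_iff_of_surjective _ Ideal.Quotient.mk_surjective).mp hgJ
  refine ⟨t, ht, fun a ha => ?_⟩
  have haJ : Ideal.Quotient.mk I a ∈ J := Ideal.mem_map_of_mem _ ha
  rw [hg] at haJ
  obtain ⟨c, hc⟩ := Submodule.mem_span_singleton.mp haJ
  obtain ⟨c, rfl⟩ := Ideal.Quotient.mk_surjective c
  rw [smul_eq_mul, ← map_mul, Ideal.Quotient.eq, hI, Ideal.mem_span_singleton'] at hc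
  obtain ⟨d, hd⟩ := hc
  exact ⟨c, -d, by linear_combination hd⟩

end Gen

section Lift

variable {A B : Type*} [CommRing A] [IsDomain A] [IsNoetherianRing A] [IsLocalRing A]
  [CommRing B] [Algebra A B]

omit [IsDomain A] [IsNoetherianRing A] in
theorem mem_map_maximalIdeal_iff_exists {w t : A}
    (ht : ∀ a ∈ maximalIdeal A, ∃ c d : A, a = t * c + w * d) (x : B)
    (hx : x ∈ (maximalIdeal A).map (algebraMap A B)) :
    ∃ x₁ a' : B, x = t • x₁ + w • a' := by
  rw [Ideal.map] at hx
  induction hx using Submodule.span_induction with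
  | mem y hy =>
    obtain ⟨a, ha, rfl⟩ := hy
    obtain ⟨c, d, hcd⟩ := ht a ha
    refine ⟨algebraMap A B c, algebraMap A B d, ?_⟩
    rw [hcd, Algebra.smul_def, Algebra.smul_def, map_add, map_mul, map_mul]
  | zero => exact ⟨0, 0, by simp⟩
  | add y z _ _ hy hz =>
    obtain ⟨y₁, y₂, rfl⟩ := hy
    obtain ⟨z₁, z₂, rfl⟩ := hz
    exact ⟨y₁ + z₁, y₂ + z₂, by simp only [smul_add]; abel⟩
  | smul r y _ hy =>
    obtain ⟨y₁, y₂, rfl⟩ := hy
    refine ⟨r * y₁, r * y₂, ?_⟩
    simp only [smul_eq_mul, Algebra.smul_def]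
    ring

omit [IsDomain A] [IsNoetherianRing A] in
/-- **Lifting idempotents**, abstract form. -/
theorem exists_lift_of_sq {w : A} (hw : Prime w) [IsPrincipalIdealRing (A ⧸ Ideal.span {w})]
    (hT : ∀ r : A, ¬ w ∣ r → ∀ m m' : B, r • m = w • m' → ∃ m'' : B, m = w • m'')
    (hR : ∀ x : B, x ^ 2 ∈ (maximalIdeal A).map (algebraMap A B) →
      x ∈ (maximalIdeal A).map (algebraMap A B))
    (s : A) (hs : ¬ w ∣ s) (x : B) (hx : ∃ z : B, x ^ 2 - s • x = w • z) :
    ∃ e z' : B, x - s • e = w • z' := by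
  set I : Ideal A := Ideal.span {w} with hI
  have hIprime : I.IsPrime := (Ideal.span_singleton_prime hw.ne_zero).mpr hw
  have : IsDomain (A ⧸ I) := Ideal.Quotient.isDomain I
  obtain ⟨t, htm, ht⟩ := exists_maximalIdeal_generator w
  have hmk0 : ∀ r : A, Ideal.Quotient.mk I r = 0 ↔ w ∣ r := fun r => by
    rw [Ideal.Quotient.eq_zero_iff_mem, hI, Ideal.mem_span_singleton]
  -- the induction statement
  suffices H : ∀ σ : A ⧸ I, σ ≠ 0 → ∀ (s : A) (x : B), Ideal.Quotient.mk I s = σ →
      (∃ z : B, x ^ 2 - s • x = w • z) → ∃ e z' : B, x - s • e = w • z' from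
    H (Ideal.Quotient.mk I s) (fun h => hs ((hmk0 s).mp h)) s x rfl hx
  intro σ
  refine WellFounded.induction (C := fun σ : A ⧸ I => σ ≠ 0 → ∀ (s : A) (x : B),
    Ideal.Quotient.mk I s = σ → (∃ z : B, x ^ 2 - s • x = w • z) →
      ∃ e z' : B, x - s • e = w • z') wellFounded_dvdNotUnit σ ?_
  intro σ IH hσ s x hsσ hx
  obtain ⟨z, hz⟩ := hx
  by_cases hunit : IsUnit s
  · -- `s` is a unit of `A`
    obtain ⟨u, rfl⟩ := hunit
    refine ⟨(↑u⁻¹ : A) • x, 0, ?_⟩
    rw [smul_smul, Units.mul_inv, one_smul, sub_self, smul_zero]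
  · -- `s ∈ 𝔪`
    have hsm : s ∈ maximalIdeal A := (mem_maximalIdeal s).mpr hunit
    obtain ⟨s₁, d, hsd⟩ := ht s hsm
    have hwm : w ∈ maximalIdeal A := (mem_maximalIdeal w).mpr hw.not_isUnit
    -- `x ^ 2 ∈ 𝔪 B`
    have hx2 : x ^ 2 ∈ (maximalIdeal A).map (algebraMap A B) := by
      have : x ^ 2 = algebraMap A B s * x + algebraMap A B w * z := by
        rw [← Algebra.smul_def, ← Algebra.smul_def, ← hz]; ring
      rw [this]
      exact Ideal.add_mem _ (Ideal.mul_mem_right _ _ (Ideal.mem_map_of_mem _ hsm))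
        (Ideal.mul_mem_right _ _ (Ideal.mem_map_of_mem _ hwm))
    obtain ⟨x₁, a', hxa⟩ := mem_map_maximalIdeal_iff_exists ht x (hR x hx2)
    -- `w ∤ t`, `w ∤ s₁`
    have hσs : ¬ w ∣ s := fun h => hσ (by rw [← hsσ]; exact (hmk0 s).mpr h)
    have hwt : ¬ w ∣ t := fun h => hσs (by
      rw [hsd]; exact dvd_add (Dvd.dvd.mul_right h _) (dvd_mul_right w d))
    have hws₁ : ¬ w ∣ s₁ := fun h => hσs (by
      rw [hsd]; exact dvd_add (Dvd.dvd.mul_left h _) (dvd_mul_right w d))
    have hwt2 : ¬ w ∣ t ^ 2 := fun h => hwt (hw.dvd_of_dvd_pow h)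
    -- the relation for `x₁`, `s₁`
    have hrel : (t ^ 2) • (x₁ ^ 2 - s₁ • x₁) =
        w • (z - (2 * algebraMap A B t * x₁ * a' + algebraMap A B w * a' ^ 2
          - algebraMap A B (t * s₁) * a' - algebraMap A B (d * t) * x₁
          - algebraMap A B (d * w) * a')) := by
      have hz' : x ^ 2 - algebraMap A B s * x = algebraMap A B w * z := by
        rw [← Algebra.smul_def, ← Algebra.smul_def]; exact hz
      have hxa' : x = algebraMap A B t * x₁ + algebraMap A B w * a' := by
        rw [← Algebra.smul_def, ← Algebra.smul_def]; exact hxa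
      have hsd' : algebraMap A B s = algebraMap A B t * algebraMap A B s₁
          + algebraMap A B w * algebraMap A B d := by
        rw [hsd, map_add, map_mul, map_mul]
      simp only [Algebra.smul_def, map_mul, map_pow]
      rw [hxa', hsd'] at hz'
      linear_combination hz'
    obtain ⟨m'', hm''⟩ := hT (t ^ 2) hwt2 _ _ hrel
    -- the induction hypothesis for `σ₁ = mk s₁`
    have hσ₁ : Ideal.Quotient.mk I s₁ ≠ 0 := fun h => hws₁ ((hmk0 s₁).mp h)
    have htunit : ¬ IsUnit (Ideal.Quotient.mk I t) := by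
      intro h
      obtain ⟨v, hv⟩ := h.exists_right_inv
      obtain ⟨v, rfl⟩ := Ideal.Quotient.mk_surjective v
      rw [← map_mul, ← map_one (Ideal.Quotient.mk I), Ideal.Quotient.eq, hI,
        Ideal.mem_span_singleton'] at hv
      obtain ⟨a, ha⟩ := hv
      have h1 : (1 : A) ∈ maximalIdeal A := by
        have : (1 : A) = t * v - a * w := by linear_combination ha
        rw [this]
        exact Ideal.sub_mem _ (Ideal.mul_mem_right _ _ htm) (Ideal.mul_mem_left _ _ hwm)
      exact (Ideal.ne_top_iff_one _).mp (maximalIdeal.isMaximal A).ne_top h1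
    have hdnu : DvdNotUnit (Ideal.Quotient.mk I s₁) σ := by
      refine ⟨hσ₁, Ideal.Quotient.mk I t, htunit, ?_⟩
      rw [← hsσ, hsd, map_add, map_mul, map_mul, (hmk0 w).mpr dvd_rfl, zero_mul, add_zero,
        mul_comm]
    obtain ⟨e, z', hez⟩ := IH _ hdnu hσ₁ s₁ x₁ rfl ⟨m'', hm''⟩
    refine ⟨e, algebraMap A B t * z' + a' - algebraMap A B d * e, ?_⟩
    have hez' : x₁ - algebraMap A B s₁ * e = algebraMap A B w * z' := by
      rw [← Algebra.smul_def, ← Algebra.smul_def]; exact hez
    have hxa' : x = algebraMap A B t * x₁ + algebraMap A B w * a' := by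
      rw [← Algebra.smul_def, ← Algebra.smul_def]; exact hxa
    rw [Algebra.smul_def, Algebra.smul_def, hsd, hxa', map_add, map_mul, map_mul]
    linear_combination (algebraMap A B t) * hez'

end Lift

end Fermat.Agent.S18.H298
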