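import Mathlib

/-!
# S18 / b4 — step 2: lifting a basis of `M / w M` to a basis of `M`

`A` a commutative noetherian ring, `w` in the Jacobson radical, `M` a finite `A`-module on which
`w` is a non zero divisor.  If `b : ι → M` reduces to a basis of `M / w M` over `A / w`, then
`b` is a basis of `M` over `A`.
-/

set_option autoImplicit false

namespace Fermat.Agent.S18.H298

open Submodule

section LiftBasis

variable {A M ι : Type*} [CommRing A] [AddCommGroup M] [Module A M] [Fintype ι]

/-- The reduction map `M → M / I M`. -/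
abbrev redMod (I : Ideal A) (M : Type*) [AddCommGroup M] [Module A M] :
    M →ₗ[A] M ⧸ (I • ⊤ : Submodule A M) :=
  (I • ⊤ : Submodule A M).mkQ

theorem span_eq_top_of_quotient [Module.Finite A M] (I : Ideal A)
    (hI : I ≤ Ideal.jacobson ⊥) (b : ι → M)
    (hsp : ∀ m : M, ∃ g : ι → A, m - ∑ i, g i • b i ∈ (I • ⊤ : Submodule A M)) :
    span A (Set.range b) = ⊤ := by
  refine top_le_iff.mp ?_
  refine le_of_le_smul_of_le_jacobson_bot (I := I) Module.Finite.fg_top hI ?_
  intro m _
  obtain ⟨g, hg⟩ := hsp m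
  have h1 : ∑ i, g i • b i ∈ span A (Set.range b) :=
    Submodule.sum_mem _ fun i _ => Submodule.smul_mem _ _ (subset_span ⟨i, rfl⟩)
  have : m = ∑ i, g i • b i + (m - ∑ i, g i • b i) := by abel
  rw [this]
  exact Submodule.add_mem_sup h1 hg

theorem linearIndependent_of_quotient [IsNoetherianRing A] (w : A)
    (hw : Ideal.span {w} ≤ Ideal.jacobson ⊥) (hreg : ∀ m : M, w • m = 0 → m = 0) (b : ι → M)
    (hli : ∀ g : ι → A, ∑ i, g i • b i ∈ (Ideal.span {w} • ⊤ : Submodule A M) →
      ∀ i, g i ∈ Ideal.span {w}) :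
    LinearIndependent A b := by
  classical
  rw [Fintype.linearIndependent_iff]
  -- the module of relations
  let φ : (ι → A) →ₗ[A] M := Fintype.linearCombination A b
  have hφ : ∀ g : ι → A, φ g = ∑ i, g i • b i := fun g => by
    simp [φ, Fintype.linearCombination_apply]
  set N : Submodule A (ι → A) := LinearMap.ker φ with hN
  have hNfg : N.FG := IsNoetherian.noetherian N
  have hle : N ≤ Ideal.span {w} • N := by
    intro g hg
    have hg0 : ∑ i, g i • b i = 0 := by rw [← hφ]; exact hg
    have hmem : ∀ i, g i ∈ Ideal.span {w} := hli g (by rw [hg0]; exact Submodule.zero_mem _)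
    have hdiv : ∀ i, ∃ c, g i = w * c := fun i => by
      obtain ⟨c, hc⟩ := Ideal.mem_span_singleton'.mp (hmem i)
      exact ⟨c, by rw [← hc, mul_comm]⟩
    choose g' hg' using hdiv
    have hgg' : g = w • g' := by
      ext i; simp [hg' i]
    have hg'N : g' ∈ N := by
      rw [hN, LinearMap.mem_ker, hφ]
      apply hreg
      rw [Finset.smul_sum, ← hg0]
      refine Finset.sum_congr rfl fun i _ => ?_
      rw [hg' i, mul_smul]
    rw [hgg']
    exact Submodule.smul_mem_smul (Ideal.mem_span_singleton_self w) hg'N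
  have hbot : N = ⊥ := eq_bot_of_le_smul_of_le_jacobson_bot _ N hNfg hle hw
  intro g hg i
  have : g ∈ N := by rw [hN, LinearMap.mem_ker, hφ]; exact hg
  rw [hbot, Submodule.mem_bot] at this
  rw [this]; rfl

/-- Lifting a basis of the quotient. -/
theorem exists_basis_of_quotient [IsNoetherianRing A] [Module.Finite A M] (w : A)
    (hw : Ideal.span {w} ≤ Ideal.jacobson ⊥) (hreg : ∀ m : M, w • m = 0 → m = 0) (b : ι → M)
    (hsp : ∀ m : M, ∃ g : ι → A, m - ∑ i, g i • b i ∈ (Ideal.span {w} • ⊤ : Submodule A M))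
    (hli : ∀ g : ι → A, ∑ i, g i • b i ∈ (Ideal.span {w} • ⊤ : Submodule A M) →
      ∀ i, g i ∈ Ideal.span {w}) :
    ∃ B : Module.Basis ι A M, ∀ i, B i = b i :=
  ⟨Module.Basis.mk (linearIndependent_of_quotient w hw hreg b hli)
    (span_eq_top_of_quotient _ hw b hsp).ge, fun i => by simp⟩

end LiftBasis

end Fermat.Agent.S18.H298
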