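import Mathlib

/-!
# S18 / b4 — step 1: the special fibre of a normal model has no vertical torsion

`A` an integrally closed domain with fraction field `K`, `L / K` a field extension,
`w ∈ A` a prime element, `s ∈ A` not divisible by `w`.

* `isIntegral_of_smul_of_smul` : if `w • y` and `s • y` are integral over `A`, so is `y`.

In words: if `B'` is the integral closure of `A` in `L`, then `s` is a non zero divisor on
`B' / w B'` (`(w, s)` is a regular sequence on `B'`).
-/

set_option autoImplicit false

namespace Fermat.Agent.S18.H298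

open Polynomial

section Regular

variable {A L : Type*} [CommRing A] [IsDomain A] [IsIntegrallyClosed A]
  [Field L] [Algebra A L] [FaithfulSMul A L]

/-- If `w` is prime, `w ∤ s`, and both `w • y` and `s • y` are integral over the integrally
closed domain `A`, then `y` is integral over `A`. -/
theorem isIntegral_of_smul_of_smul {w s : A} (hw : Prime w) (hs : ¬ w ∣ s) {y : L}
    (h1 : IsIntegral A (w • y)) (h2 : IsIntegral A (s • y)) : IsIntegral A y := by
  have hs0 : s ≠ 0 := fun h => hs (h ▸ dvd_zero w)
  have hw0 : w ≠ 0 := hw.ne_zero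
  set f := minpoly A (w • y) with hf
  set g := minpoly A (s • y) with hg
  have e : f.scaleRoots s = g.scaleRoots w := by
    rw [hf, hg, ← IsIntegrallyClosed.minpoly_smul hs0 h1,
      ← IsIntegrallyClosed.minpoly_smul hw0 h2, smul_comm]
  have hfm : f.Monic := minpoly.monic h1
  have hdeg : f.natDegree = g.natDegree := by
    have := congrArg natDegree e
    simpa [natDegree_scaleRoots] using this
  have hcoeff : ∀ i, f.coeff i * s ^ (f.natDegree - i) = g.coeff i * w ^ (f.natDegree - i) := by
    intro i
    have := congrArg (fun p => coeff p i) e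
    simpa [coeff_scaleRoots, hdeg] using this
  have hdvd : ∀ i, w ^ (f.natDegree - i) ∣ f.coeff i := by
    intro i
    refine hw.pow_dvd_of_dvd_mul_right (a := f.coeff i) (b := s ^ (f.natDegree - i))
      (f.natDegree - i) (fun h => hs (hw.dvd_of_dvd_pow h)) ?_
    rw [hcoeff i]
    exact Dvd.intro_left _ rfl
  choose c hc using hdvd
  set r := f.natDegree with hr
  -- the polynomial `h = X ^ r + ∑_{i < r} c i X ^ i`
  let q : A[X] := ∑ i ∈ Finset.range r, C (c i) * X ^ i
  have hqdeg : q.degree < (r : WithBot ℕ) := by
    refine lt_of_le_of_lt (degree_sum_le _ _) ?_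
    refine (Finset.sup_lt_iff (WithBot.bot_lt_coe r)).mpr ?_
    intro i hi
    refine lt_of_le_of_lt (degree_C_mul_X_pow_le i (c i)) ?_
    exact WithBot.coe_lt_coe.mpr (Finset.mem_range.mp hi)
  have hmonic : (X ^ r + q).Monic := monic_X_pow_add hqdeg
  refine ⟨X ^ r + q, hmonic, ?_⟩
  -- `w ^ r • (X ^ r + q)(y) = f (w • y) = 0`
  have hwL : (algebraMap A L w) ≠ 0 := by
    simpa using (FaithfulSMul.algebraMap_injective A L).ne hw0
  have key : (algebraMap A L w) ^ r * (aeval y (X ^ r + q)) = aeval (w • y) f := by
    rw [aeval_eq_sum_range (p := f), ← hr, Finset.sum_range_succ]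
    have hlead : f.coeff r = 1 := hfm.coeff_natDegree
    simp only [q, map_add, map_pow, aeval_X, map_sum, map_mul, aeval_C, hlead, one_smul,
      mul_add, Finset.mul_sum]
    rw [add_comm]
    congr 1
    · refine Finset.sum_congr rfl fun i hi => ?_
      have hi' : i < r := Finset.mem_range.mp hi
      rw [hc i, Algebra.smul_def, Algebra.smul_def, map_mul, map_pow, mul_pow]
      have : (algebraMap A L w) ^ r = (algebraMap A L w) ^ (r - i) * (algebraMap A L w) ^ i := by
        rw [← pow_add, Nat.sub_add_cancel hi'.le]
      rw [this]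
      ring
    · rw [Algebra.smul_def, mul_pow]
  have h0 : aeval (w • y) f = 0 := minpoly.aeval A (w • y)
  rw [h0] at key
  rcases mul_eq_zero.mp key with h | h
  · exact absurd h (pow_ne_zero r hwL)
  · simpa [aeval_def] using h

end Regular

end Fermat.Agent.S18.H298
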