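import Mathlib
import Fermat.Agent.S18.H298.Regular
import Fermat.Agent.S18.H298.LiftBasis

/-!
# S18 / b4 — step 3: the integral closure of a local model is free

`A` a noetherian local integrally closed domain with fraction field `K`, `w ∈ A` a prime element
such that `A / w` is a principal ideal ring (a discrete valuation ring or a field),
`L / K` finite separable.  Then the integral closure `B'` of `A` in `L` is a free `A`-module.

* `smul_mem_smul_top_imp` : `B' / w B'` has no `A / w`-torsion.
* `exists_basis_integralClosure` : `B'` has an `A`-basis.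
-/

set_option autoImplicit false

namespace Fermat.Agent.S18.H298

open Submodule

section Model

variable (A K L : Type*) [CommRing A] [IsDomain A] [IsIntegrallyClosed A]
  [Field K] [Algebra A K] [IsFractionRing A K]
  [Field L] [Algebra K L] [Algebra A L] [IsScalarTower A K L]

omit [IsDomain A] [IsIntegrallyClosed A] in
include K in
theorem faithfulSMul_of_tower : FaithfulSMul A L :=
  (faithfulSMul_iff_algebraMap_injective A L).mpr (by
    rw [IsScalarTower.algebraMap_eq A K L]
    exact (algebraMap K L).injective.comp (IsFractionRing.injective A K))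

omit [IsDomain A] [IsIntegrallyClosed A] in
variable {A L} in
theorem mem_span_smul_top_iff {w : A} (m : integralClosure A L) :
    m ∈ (Ideal.span {w} • ⊤ : Submodule A (integralClosure A L)) ↔
      ∃ m' : integralClosure A L, m = w • m' := by
  rw [ideal_span_singleton_smul, mem_smul_pointwise_iff_exists]
  constructor
  · rintro ⟨m', -, h⟩; exact ⟨m', h.symm⟩
  · rintro ⟨m', h⟩; exact ⟨m', mem_top, h.symm⟩

variable {A L} in
include K in
/-- `B' / w B'` is torsion free over `A / w`. -/
theorem smul_mem_smul_top_imp {w r : A} (hw : Prime w) (hr : ¬ w ∣ r)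
    (m : integralClosure A L)
    (h : r • m ∈ (Ideal.span {w} • ⊤ : Submodule A (integralClosure A L))) :
    m ∈ (Ideal.span {w} • ⊤ : Submodule A (integralClosure A L)) := by
  have : FaithfulSMul A L := faithfulSMul_of_tower A K L
  obtain ⟨m', hm'⟩ := (mem_span_smul_top_iff _).mp h
  have hwL : algebraMap A L w ≠ 0 := by
    simpa using (FaithfulSMul.algebraMap_injective A L).ne hw.ne_zero
  -- `y = m / w`
  set y : L := (m : L) / algebraMap A L w with hy
  have h1 : w • y = (m : L) := by
    rw [hy, Algebra.smul_def, mul_div_cancel₀ _ hwL]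
  have h2 : r • y = (m' : L) := by
    have e : ((r • m : integralClosure A L) : L) = ((w • m' : integralClosure A L) : L) := by
      rw [hm']
    simp only [Subalgebra.coe_smul] at e
    rw [hy, Algebra.smul_def, ← mul_div_assoc, ← Algebra.smul_def, e, Algebra.smul_def,
      mul_div_assoc, mul_div_cancel₀ _ hwL]
  have hyint : IsIntegral A y :=
    isIntegral_of_smul_of_smul hw hr (h1 ▸ m.2) (h2 ▸ m'.2)
  refine (mem_span_smul_top_iff _).mpr ⟨⟨y, hyint⟩, ?_⟩
  ext
  simp only [Subalgebra.coe_smul]
  exact h1.symm

end Model

end Fermat.Agent.S18.H298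

namespace Fermat.Agent.S18.H298

open Submodule

section Free

variable (A K L : Type*) [CommRing A] [IsDomain A] [IsIntegrallyClosed A] [IsNoetherianRing A]
  [IsLocalRing A]
  [Field K] [Algebra A K] [IsFractionRing A K]
  [Field L] [Algebra K L] [Algebra A L] [IsScalarTower A K L]
  [FiniteDimensional K L] [Algebra.IsSeparable K L]

include K in
/-- The integral closure of a local model is free. -/
theorem exists_basis_integralClosure {w : A} (hw : Prime w)
    [IsPrincipalIdealRing (A ⧸ Ideal.span {w})] :
    ∃ n : ℕ, Nonempty (Module.Basis (Fin n) A (integralClosure A L)) := by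
  classical
  set I : Ideal A := Ideal.span {w} with hI
  have hIprime : I.IsPrime := (Ideal.span_singleton_prime hw.ne_zero).mpr hw
  have : IsDomain (A ⧸ I) := Ideal.Quotient.isDomain I
  have hfin : Module.Finite A (integralClosure A L) := IsIntegralClosure.finite A K L _
  have hFS : FaithfulSMul A L := faithfulSMul_of_tower A K L
  have hnotdvd : ∀ r : A, Ideal.Quotient.mk I r ≠ 0 → ¬ w ∣ r := by
    intro r hr hdvd
    exact hr (Ideal.Quotient.eq_zero_iff_mem.mpr (Ideal.mem_span_singleton.mpr hdvd))
  have : Module.Finite (A ⧸ I)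
      ((integralClosure A L) ⧸ (I • ⊤ : Submodule A (integralClosure A L))) :=
    Module.Finite.of_restrictScalars_finite A _ _
  have : Module.IsTorsionFree (A ⧸ I)
      ((integralClosure A L) ⧸ (I • ⊤ : Submodule A (integralClosure A L))) := by
    rw [Module.isTorsionFree_iff_smul_eq_zero]
    intro r m h
    obtain ⟨r, rfl⟩ := Ideal.Quotient.mk_surjective r
    obtain ⟨m, rfl⟩ := Submodule.Quotient.mk_surjective _ m
    by_cases hr : Ideal.Quotient.mk I r = 0
    · exact Or.inl hr
    · right
      rw [Module.Quotient.mk_smul_mk, Submodule.Quotient.mk_eq_zero] at h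
      rw [Submodule.Quotient.mk_eq_zero]
      exact smul_mem_smul_top_imp K hw (hnotdvd r hr) m h
  obtain ⟨n, bbar⟩ := Module.basisOfFiniteTypeTorsionFree' (R := A ⧸ I)
    (M := (integralClosure A L) ⧸ (I • ⊤ : Submodule A (integralClosure A L)))
  have hsurj := Submodule.Quotient.mk_surjective (I • ⊤ : Submodule A (integralClosure A L))
  choose b hb using fun i => hsurj (bbar i)
  have hjac : I ≤ Ideal.jacobson ⊥ := by
    refine le_trans ?_ (IsLocalRing.maximalIdeal_le_jacobson ⊥)
    rw [hI, Ideal.span_singleton_le_iff_mem, IsLocalRing.mem_maximalIdeal, mem_nonunits_iff]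
    exact hw.not_isUnit
  have hreg : ∀ m : integralClosure A L, w • m = 0 → m = 0 := by
    intro m hm
    rcases smul_eq_zero.mp hm with h | h
    · exact absurd h hw.ne_zero
    · exact h
  have hsum : ∀ g : Fin n → A,
      Submodule.Quotient.mk (p := (I • ⊤ : Submodule A (integralClosure A L)))
        (∑ i, g i • b i) = ∑ i, Ideal.Quotient.mk I (g i) • bbar i := by
    intro g
    rw [← Submodule.mkQ_apply, map_sum]
    refine Finset.sum_congr rfl fun i _ => ?_
    rw [← hb i, Module.Quotient.mk_smul_mk, Submodule.mkQ_apply]
  have hsp : ∀ m : integralClosure A L, ∃ g : Fin n → A,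
      m - ∑ i, g i • b i ∈ (I • ⊤ : Submodule A (integralClosure A L)) := by
    intro m
    have hq := Ideal.Quotient.mk_surjective (I := I)
    choose g hg using fun i => hq (bbar.repr (Submodule.Quotient.mk m) i)
    refine ⟨g, ?_⟩
    rw [← Submodule.Quotient.mk_eq_zero, Submodule.Quotient.mk_sub, hsum]
    simp only [hg]
    rw [bbar.sum_repr, sub_self]
  have hli : ∀ g : Fin n → A,
      ∑ i, g i • b i ∈ (I • ⊤ : Submodule A (integralClosure A L)) → ∀ i, g i ∈ I := by
    intro g hg i
    rw [← Submodule.Quotient.mk_eq_zero, hsum] at hg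
    have := Fintype.linearIndependent_iff.mp bbar.linearIndependent _ hg i
    exact Ideal.Quotient.eq_zero_iff_mem.mp this
  obtain ⟨B, -⟩ := exists_basis_of_quotient w hjac hreg b hsp hli
  exact ⟨n, ⟨B⟩⟩

end Free

end Fermat.Agent.S18.H298
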