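import Mathlib
import Fermat.Agent.S18.H298.Model

/-!
# S18 / b4 — step 4: purity of the branch locus for a free normal model

`A` a noetherian integrally closed domain with fraction field `K`, `L / K` finite separable,
`B'` the integral closure of `A` in `L`, `b` an `A`-basis of `B'`.

* `discr_integralClosure_eq` : discriminants of families in `B'` over `A` and over `K` agree.
* `isUnit_discr_of_unramified` : if at every prime `𝔭 ≠ 0` of `A` of height `≤ 1` there is
  an integral family whose discriminant is not in `𝔭` ("`L / K` is unramified in codimension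
  one"), then the discriminant of `b` is a unit of `A`.
-/

set_option autoImplicit false

namespace Fermat.Agent.S18.H298

open Module Matrix

section Purity

variable (A K L : Type*) [CommRing A] [IsDomain A] [IsIntegrallyClosed A]
  [Field K] [Algebra A K] [IsFractionRing A K]
  [Field L] [Algebra K L] [Algebra A L] [IsScalarTower A K L]
  [FiniteDimensional K L]

/-- The unramifiedness hypothesis at a prime `𝔭` of `A`: there is a family of `n` elements of
`L`, integral over `A`, whose discriminant over `K` lies in `A` but not in `𝔭`. -/
def HasUnitDiscrAt (n : ℕ) (𝔭 : Ideal A) : Prop :=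
  ∃ c : Fin n → L, (∀ i, IsIntegral A (c i)) ∧
    ∃ a : A, a ∉ 𝔭 ∧ algebraMap A K a = Algebra.discr K c

omit [IsIntegrallyClosed A] in
/-- Traces over `A` and over `K` of an element of the integral closure agree. -/
theorem trace_integralClosure_eq {n : ℕ} (b : Basis (Fin n) A (integralClosure A L))
    (x : integralClosure A L) :
    Algebra.trace K L (x : L) = algebraMap A K (Algebra.trace A (integralClosure A L) x) := by
  have : IsLocalization (Algebra.algebraMapSubmonoid (integralClosure A L) (nonZeroDivisors A))
      L := IsIntegralClosure.isLocalization A K L _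
  have : Module.Free A (integralClosure A L) := Module.Free.of_basis b
  have : Module.Finite A (integralClosure A L) := Module.Finite.of_basis b
  exact Algebra.trace_localization A (nonZeroDivisors A) (Rₘ := K) (Sₘ := L) x

omit [IsIntegrallyClosed A] in
/-- Discriminants over `A` and over `K` of a family in the integral closure agree. -/
theorem discr_integralClosure_eq {n : ℕ} (b : Basis (Fin n) A (integralClosure A L))
    (c : Fin n → integralClosure A L) :
    Algebra.discr K (fun i => (c i : L)) = algebraMap A K (Algebra.discr A c) := by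
  have hM : Algebra.traceMatrix K (fun i => (c i : L)) =
      (algebraMap A K).mapMatrix (Algebra.traceMatrix A c) := by
    ext i j
    rw [RingHom.mapMatrix_apply, Matrix.map_apply, Algebra.traceMatrix_apply,
      Algebra.traceMatrix_apply, Algebra.traceForm_apply, Algebra.traceForm_apply,
      ← trace_integralClosure_eq A K L b, Subalgebra.coe_mul]
  rw [Algebra.discr_def, Algebra.discr_def, RingHom.map_det, hM]

variable [IsNoetherianRing A] [Algebra.IsSeparable K L]

omit [IsIntegrallyClosed A] [IsNoetherianRing A] in
include K in
theorem discr_basis_ne_zero {n : ℕ} (b : Basis (Fin n) A (integralClosure A L)) :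
    Algebra.discr A b ≠ 0 := by
  classical
  have : IsLocalization (Algebra.algebraMapSubmonoid (integralClosure A L) (nonZeroDivisors A))
      L := IsIntegralClosure.isLocalization A K L _
  have h1 := Algebra.discr_localizationLocalization A (nonZeroDivisors A) (Rₘ := K) L b
  have h2 := Algebra.discr_not_zero_of_basis K
    (b.localizationLocalization K (nonZeroDivisors A) L)
  intro h0
  rw [h0, map_zero] at h1
  exact h2 h1

omit [IsIntegrallyClosed A] in
/-- **Purity.**  Unramified in codimension one implies unit discriminant. -/
theorem isUnit_discr_of_unramified {n : ℕ} (b : Basis (Fin n) A (integralClosure A L))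
    (hU : ∀ 𝔭 : Ideal A, 𝔭.IsPrime → 𝔭 ≠ ⊥ → 𝔭.height ≤ 1 → HasUnitDiscrAt A K L n 𝔭) :
    IsUnit (Algebra.discr A b) := by
  classical
  set D := Algebra.discr A b with hD
  have hD0 : D ≠ 0 := discr_basis_ne_zero A K L b
  by_contra hunit
  have hne : Ideal.span {D} ≠ ⊤ := by rwa [Ne, Ideal.span_singleton_eq_top]
  obtain ⟨𝔭, h𝔭⟩ := Ideal.nonempty_minimalPrimes hne
  have hprime : 𝔭.IsPrime := h𝔭.1.1
  have hD𝔭 : D ∈ 𝔭 := h𝔭.1.2 (Ideal.mem_span_singleton_self D)
  have hbot : 𝔭 ≠ ⊥ := fun h => hD0 (by rw [h] at hD𝔭; exact hD𝔭)
  have hht : 𝔭.height ≤ 1 :=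
    Ideal.height_le_one_of_isPrincipal_of_mem_minimalPrimes (Ideal.span {D}) 𝔭 h𝔭
  obtain ⟨c, hc, a, ha, hac⟩ := hU 𝔭 hprime hbot hht
  let c' : Fin n → integralClosure A L := fun i => ⟨c i, hc i⟩
  let M : Matrix (Fin n) (Fin n) A := fun i j => b.repr (c' i) j
  have hc' : c' = (M.map (algebraMap A (integralClosure A L))) *ᵥ b := by
    ext i
    have := b.sum_repr (c' i)
    simp only [Matrix.mulVec, dotProduct, Matrix.map_apply, M, ← Algebra.smul_def]
    rw [this]
  have hdis : Algebra.discr A c' = M.det ^ 2 * D := by
    rw [hc', Algebra.discr_of_matrix_mulVec]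
  have h3 : algebraMap A K a = algebraMap A K (M.det ^ 2 * D) := by
    rw [hac, ← hdis, ← discr_integralClosure_eq A K L b c']
  have ha' : a = M.det ^ 2 * D := IsFractionRing.injective A K h3
  exact ha (ha' ▸ 𝔭.mul_mem_left _ hD𝔭)

end Purity

end Fermat.Agent.S18.H298
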