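import Mathlib
import Fermat.Agent.S18.H298.Purity
import Fermat.Agent.S18.H298.Fibre
import Fermat.Agent.S18.H298.Lift

/-!
# S18 / b4 — step 7: the local theorem

`A` a noetherian local integrally closed domain with fraction field `K`, `w ∈ A` a prime element
with `A / w` a principal ideal ring, `L / K` finite separable, unramified at all primes of
height one of `A` (in the sense of `HasUnitDiscrAt`).  `B'` = integral closure of `A` in `L`.

* `exists_basis_isUnit_discr` : `B'` is free over `A` with unit discriminant (finite étale).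
* `exists_lift_local` : if `x ∈ B'`, `s ∈ A ∖ (w)` and `x ^ 2 ≡ s x mod w B'`, then there is
  `e ∈ B'` with `x ≡ s e mod w B'` and `e ^ 2 ≡ e mod w B'`.
-/

set_option autoImplicit false

namespace Fermat.Agent.S18.H298

open Module IsLocalRing

section Local

variable (A K L : Type*) [CommRing A] [IsDomain A] [IsIntegrallyClosed A] [IsNoetherianRing A]
  [IsLocalRing A]
  [Field K] [Algebra A K] [IsFractionRing A K]
  [Field L] [Algebra K L] [Algebra A L] [IsScalarTower A K L]
  [FiniteDimensional K L] [Algebra.IsSeparable K L]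

omit [IsIntegrallyClosed A] [IsNoetherianRing A] [IsLocalRing A] [Algebra.IsSeparable K L] in
theorem finrank_eq_of_basis {n : ℕ} (b : Basis (Fin n) A (integralClosure A L)) :
    Module.finrank K L = n := by
  have : IsLocalization (Algebra.algebraMapSubmonoid (integralClosure A L) (nonZeroDivisors A))
      L := IsIntegralClosure.isLocalization A K L _
  have := Module.finrank_eq_card_basis (b.localizationLocalization K (nonZeroDivisors A) L)
  simpa using this

/-- **Local purity**: the integral closure is free with unit discriminant. -/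
theorem exists_basis_isUnit_discr {w : A} (hw : Prime w)
    [IsPrincipalIdealRing (A ⧸ Ideal.span {w})]
    (hU : ∀ 𝔭 : Ideal A, 𝔭.IsPrime → 𝔭 ≠ ⊥ → 𝔭.height ≤ 1 →
      HasUnitDiscrAt A K L (Module.finrank K L) 𝔭) :
    ∃ b : Basis (Fin (Module.finrank K L)) A (integralClosure A L),
      IsUnit (Algebra.discr A b) := by
  obtain ⟨n, ⟨b⟩⟩ := exists_basis_integralClosure A K L hw
  have hn : Module.finrank K L = n := finrank_eq_of_basis A K L b
  subst hn
  exact ⟨b, isUnit_discr_of_unramified A K L b hU⟩

/-- **Local lifting of idempotents.** -/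
theorem exists_lift_local {w : A} (hw : Prime w)
    [IsPrincipalIdealRing (A ⧸ Ideal.span {w})]
    (hU : ∀ 𝔭 : Ideal A, 𝔭.IsPrime → 𝔭 ≠ ⊥ → 𝔭.height ≤ 1 →
      HasUnitDiscrAt A K L (Module.finrank K L) 𝔭)
    (s : A) (hs : ¬ w ∣ s) (x : integralClosure A L)
    (hx : ∃ z : integralClosure A L, x ^ 2 - s • x = w • z) :
    ∃ e : integralClosure A L, (∃ z' : integralClosure A L, x - s • e = w • z') ∧
      ∃ z'' : integralClosure A L, e ^ 2 - e = w • z'' := by
  obtain ⟨b, hD⟩ := exists_basis_isUnit_discr A K L hw hU
  have hT : ∀ r : A, ¬ w ∣ r → ∀ m m' : integralClosure A L, r • m = w • m' →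
      ∃ m'' : integralClosure A L, m = w • m'' := by
    intro r hr m m' h
    exact (mem_span_smul_top_iff m).mp
      (smul_mem_smul_top_imp K hw hr m ((mem_span_smul_top_iff _).mpr ⟨m', h⟩))
  have hR : ∀ x : integralClosure A L,
      x ^ 2 ∈ (maximalIdeal A).map (algebraMap A (integralClosure A L)) →
      x ∈ (maximalIdeal A).map (algebraMap A (integralClosure A L)) :=
    fun x hx => mem_map_maximalIdeal_of_pow_mem b hD x 2 hx
  obtain ⟨e, z', hez⟩ := exists_lift_of_sq hw hT hR s hs x hx
  refine ⟨e, ⟨z', hez⟩, ?_⟩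
  obtain ⟨z, hz⟩ := hx
  -- `s ^ 2 • (e ^ 2 - e) ∈ w B'`
  have hs2 : ¬ w ∣ s ^ 2 := fun h => hs (hw.dvd_of_dvd_pow h)
  refine hT (s ^ 2) hs2 (e ^ 2 - e)
    (z - 2 * algebraMap A _ s * e * z' - algebraMap A _ w * z' ^ 2 + algebraMap A _ s * z') ?_
  have hez' : x - algebraMap A (integralClosure A L) s * e =
      algebraMap A (integralClosure A L) w * z' := by
    rw [← Algebra.smul_def, ← Algebra.smul_def]; exact hez
  have hz' : x ^ 2 - algebraMap A (integralClosure A L) s * x =
      algebraMap A (integralClosure A L) w * z := by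
    rw [← Algebra.smul_def, ← Algebra.smul_def]; exact hz
  have hxe : x = algebraMap A (integralClosure A L) s * e +
      algebraMap A (integralClosure A L) w * z' := by linear_combination hez'
  rw [Algebra.smul_def, Algebra.smul_def, map_pow]
  rw [hxe] at hz'
  linear_combination hz'

end Local

end Fermat.Agent.S18.H298
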