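import Mathlib
import Fermat.Agent.S18.H298.Local

/-!
# S18 / b4 — step 8: globalisation

`B` a noetherian integrally closed domain with fraction field `K`, `w ∈ B` a prime element such
that `B / w` is a Dedekind domain, `L / K` finite separable, unramified at all primes of height
one of `B` (in the sense of `HasUnitDiscrAt`).  `B'` = integral closure of `B` in `L`.

* `exists_lift_global` : if `x ∈ B'`, `s ∈ B ∖ (w)` and `x ^ 2 ≡ s x mod w B'`, then there is
  `e ∈ B'` with `x ≡ s e mod w B'` and `e ^ 2 ≡ e mod w B'`.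

In words: every idempotent of the total ring of fractions `B'_(w) / w` of the special fibre
`B' / w B'` lies in `B' / w B'`.
-/

set_option autoImplicit false

namespace Fermat.Agent.S18.H298

open Module IsLocalRing

section Transfer

variable (B K L : Type*) [CommRing B] [IsDomain B] [IsIntegrallyClosed B] [IsNoetherianRing B]
  [Field K] [Algebra B K] [IsFractionRing B K]
  [Field L] [Algebra K L] [Algebra B L] [IsScalarTower B K L]
  [FiniteDimensional K L] [Algebra.IsSeparable K L]

variable (𝔪 : Ideal B) [𝔪.IsMaximal] (A : Subalgebra B K) [IsLocalization.AtPrime A 𝔪]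

omit [IsIntegrallyClosed B] [IsNoetherianRing B] [IsFractionRing B K] in
include 𝔪 in
theorem prime_algebraMap_of_mem {w : B} (hw : Prime w) (hwm : w ∈ 𝔪) :
    Prime (algebraMap B A w) := by
  have hinj : Function.Injective (algebraMap B A) :=
    IsLocalization.injective A (Ideal.primeCompl_le_nonZeroDivisors 𝔪)
  have hne : algebraMap B A w ≠ 0 := fun h => hw.ne_zero (hinj (by rw [h, map_zero]))
  rw [← Ideal.span_singleton_prime hne]
  have hI : Ideal.span {algebraMap B A w} = (Ideal.span {w}).map (algebraMap B A) := by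
    rw [Ideal.map_span, Set.image_singleton]
  rw [hI]
  refine IsLocalization.isPrime_of_isPrime_disjoint 𝔪.primeCompl A _
    ((Ideal.span_singleton_prime hw.ne_zero).mpr hw) ?_
  rw [Set.disjoint_left]
  intro u hu hu'
  exact hu ((Ideal.span_singleton_le_iff_mem (I := 𝔪)).mpr hwm hu')

omit [IsDomain B] [IsIntegrallyClosed B] [IsNoetherianRing B] [IsFractionRing B K] in
include 𝔪 in
theorem not_dvd_algebraMap {w : B} (hw : Prime w) (hwm : w ∈ 𝔪) {s : B} (hs : ¬ w ∣ s) :
    ¬ algebraMap B A w ∣ algebraMap B A s := by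
  intro h
  apply hs
  have h1 : algebraMap B A s ∈ (Ideal.span {w}).map (algebraMap B A) := by
    rw [Ideal.map_span, Set.image_singleton]
    exact Ideal.mem_span_singleton.mpr h
  have hdisj : Disjoint (𝔪.primeCompl : Set B) (Ideal.span {w} : Ideal B) := by
    rw [Set.disjoint_left]
    intro u hu hu'
    exact hu ((Ideal.span_singleton_le_iff_mem (I := 𝔪)).mpr hwm hu')
  have h2 := IsLocalization.under_map_of_isPrime_disjoint 𝔪.primeCompl A
    ((Ideal.span_singleton_prime hw.ne_zero).mpr hw) hdisj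
  have h3 : s ∈ Ideal.under B ((Ideal.span {w}).map (algebraMap B A)) := h1
  rw [h2] at h3
  exact Ideal.mem_span_singleton.mp h3

omit [IsIntegrallyClosed B] [IsNoetherianRing B] [IsFractionRing B K] in
include 𝔪 in
theorem isPrincipalIdealRing_quotient_localization {w : B} (hw : Prime w) (hwm : w ∈ 𝔪)
    [IsDedekindDomain (B ⧸ Ideal.span {w})] :
    IsPrincipalIdealRing (A ⧸ Ideal.span {algebraMap B A w}) := by
  have hI : Ideal.span {algebraMap B A w} = (Ideal.span {w}).map (algebraMap B A) := by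
    rw [Ideal.map_span, Set.image_singleton]
  rw [hI]
  set I : Ideal B := Ideal.span {w} with hIdef
  have hle : I ≤ 𝔪 := (Ideal.span_singleton_le_iff_mem (I := 𝔪)).mpr hwm
  have hprime : (I.map (algebraMap B A)).IsPrime := by
    have := prime_algebraMap_of_mem B K 𝔪 A hw hwm
    rw [← hI]
    exact (Ideal.span_singleton_prime this.ne_zero).mpr this
  have : IsDomain (A ⧸ I.map (algebraMap B A)) := Ideal.Quotient.isDomain _
  have hM : Algebra.algebraMapSubmonoid (B ⧸ I) 𝔪.primeCompl ≤ nonZeroDivisors (B ⧸ I) := by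
    rintro _ ⟨u, hu, rfl⟩
    rw [mem_nonZeroDivisors_iff_ne_zero]
    intro h0
    rw [Ideal.Quotient.algebraMap_eq, Ideal.Quotient.eq_zero_iff_mem] at h0
    exact hu (hle h0)
  have hD : IsDedekindDomain (A ⧸ I.map (algebraMap B A)) :=
    IsLocalization.isDedekindDomain (B ⧸ I) hM (A ⧸ I.map (algebraMap B A))
  have hloc : IsLocalRing A := IsLocalization.AtPrime.isLocalRing A 𝔪
  have hnt : Nontrivial (A ⧸ I.map (algebraMap B A)) := this.toNontrivial
  have hlocq : IsLocalRing (A ⧸ I.map (algebraMap B A)) :=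
    IsLocalRing.of_surjective' (Ideal.Quotient.mk _) Ideal.Quotient.mk_surjective
  refine IsPrincipalIdealRing.of_finite_primes ?_
  refine Set.Finite.subset ((Set.finite_singleton (maximalIdeal _)).insert ⊥) ?_
  intro P hP
  by_cases h : P = ⊥
  · exact Or.inl h
  · right
    have : P.IsMaximal := Ideal.IsPrime.isMaximal hP h
    exact IsLocalRing.eq_maximalIdeal this

include 𝔪 A in
/-- The local theorem at a maximal ideal `𝔪 ∋ w`, with denominators cleared. -/
theorem exists_lift_at_maximal {w : B} (hw : Prime w) (hwm : w ∈ 𝔪)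
    [IsDedekindDomain (B ⧸ Ideal.span {w})]
    (hU : ∀ 𝔭 : Ideal B, 𝔭.IsPrime → 𝔭 ≠ ⊥ → 𝔭.height ≤ 1 →
      HasUnitDiscrAt B K L (Module.finrank K L) 𝔭)
    (s : B) (hs : ¬ w ∣ s) (x : integralClosure B L)
    (hx : ∃ z : integralClosure B L, x ^ 2 - s • x = w • z) :
    ∃ u : B, u ∉ 𝔪 ∧ ∃ e z' : integralClosure B L, u • x - s • e = w • z' := by
  have hloc : IsLocalRing A := IsLocalization.AtPrime.isLocalRing A 𝔪
  have hnoeth : IsNoetherianRing A :=
    IsLocalization.isNoetherianRing 𝔪.primeCompl A inferInstance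
  have hic : IsIntegrallyClosed A :=
    isIntegrallyClosed_of_isLocalization A 𝔪.primeCompl (Ideal.primeCompl_le_nonZeroDivisors 𝔪)
  have hw' := prime_algebraMap_of_mem B K 𝔪 A hw hwm
  have hpid := isPrincipalIdealRing_quotient_localization B K 𝔪 A hw hwm
  have hU' : ∀ 𝔮 : Ideal A, 𝔮.IsPrime → 𝔮 ≠ ⊥ → 𝔮.height ≤ 1 →
      HasUnitDiscrAt A K L (Module.finrank K L) 𝔮 := by
    intro 𝔮 h𝔮 hbot hht
    have h1 : (𝔮.under B).IsPrime := Ideal.IsPrime.under B 𝔮
    have h2 : 𝔮.under B ≠ ⊥ := by
      intro h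
      apply hbot
      have := IsLocalization.map_under 𝔪.primeCompl A 𝔮
      rw [← this]
      change Ideal.map (algebraMap B A) (𝔮.under B) = ⊥
      rw [h, Ideal.map_bot]
    have h3 : (𝔮.under B).height ≤ 1 := by
      rw [IsLocalization.height_under 𝔪.primeCompl]; exact hht
    obtain ⟨c, hc, a, ha, hac⟩ := hU _ h1 h2 h3
    exact ⟨c, fun i => (hc i).tower_top, algebraMap B A a, ha, by
      rw [← hac, ← IsScalarTower.algebraMap_apply]⟩
  obtain ⟨z, hz⟩ := hx
  let x' : integralClosure A L := ⟨(x : L), x.2.tower_top⟩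
  let z₀ : integralClosure A L := ⟨(z : L), z.2.tower_top⟩
  have hzL : (x : L) ^ 2 - s • (x : L) = w • (z : L) := by
    have := congrArg (fun y : integralClosure B L => (y : L)) hz
    simpa using this
  have hx' : ∃ z : integralClosure A L,
      x' ^ 2 - (algebraMap B A s) • x' = (algebraMap B A w) • z := by
    refine ⟨z₀, ?_⟩
    ext
    simp only [Subalgebra.coe_sub, Subalgebra.coe_pow, Subalgebra.coe_smul, x', z₀,
      algebraMap_smul]
    exact hzL
  obtain ⟨e, ⟨z', hez⟩, -⟩ := exists_lift_local A K L hw' hU' (algebraMap B A s)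
    (not_dvd_algebraMap B K 𝔪 A hw hwm hs) x' hx'
  have hezL : (x : L) - s • (e : L) = w • (z' : L) := by
    have := congrArg (fun y : integralClosure A L => (y : L)) hez
    simpa [x'] using this
  obtain ⟨m₁, hm₁⟩ :=
    IsIntegral.exists_multiple_integral_of_isLocalization 𝔪.primeCompl (Rₘ := A) (e : L) e.2
  obtain ⟨m₂, hm₂⟩ :=
    IsIntegral.exists_multiple_integral_of_isLocalization 𝔪.primeCompl (Rₘ := A) (z' : L) z'.2
  rw [Submonoid.smul_def] at hm₁ hm₂
  have he' : IsIntegral B (((m₁ : B) * (m₂ : B)) • (e : L)) := by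
    rw [mul_comm, mul_smul]; exact hm₁.smul _
  have hz' : IsIntegral B (((m₁ : B) * (m₂ : B)) • (z' : L)) := by
    rw [mul_smul]; exact hm₂.smul _
  refine ⟨(m₁ : B) * (m₂ : B), ?_, ⟨_, he'⟩, ⟨_, hz'⟩, ?_⟩
  · exact (m₁ * m₂).2
  · ext
    simp only [Subalgebra.coe_sub, Subalgebra.coe_smul]
    rw [smul_comm s, ← smul_sub, hezL, smul_comm]

end Transfer

section Global

variable (B K L : Type*) [CommRing B] [IsDomain B] [IsIntegrallyClosed B] [IsNoetherianRing B]
  [Field K] [Algebra B K] [IsFractionRing B K]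
  [Field L] [Algebra K L] [Algebra B L] [IsScalarTower B K L]
  [FiniteDimensional K L] [Algebra.IsSeparable K L]

omit [IsNoetherianRing B] [FiniteDimensional K L] [Algebra.IsSeparable K L] in
include K in
/-- A lift of `x / s` is automatically idempotent modulo `w`. -/
theorem sq_sub_self_of_lift {w : B} (hw : Prime w) (s : B) (hs : ¬ w ∣ s)
    (x e : integralClosure B L) (hx : ∃ z : integralClosure B L, x ^ 2 - s • x = w • z)
    (he : ∃ z' : integralClosure B L, x - s • e = w • z') :
    ∃ z'' : integralClosure B L, e ^ 2 - e = w • z'' := by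
  obtain ⟨z, hz⟩ := hx
  obtain ⟨z', hez⟩ := he
  have hs2 : ¬ w ∣ s ^ 2 := fun h => hs (hw.dvd_of_dvd_pow h)
  have hez' : x - algebraMap B (integralClosure B L) s * e =
      algebraMap B (integralClosure B L) w * z' := by
    rw [← Algebra.smul_def, ← Algebra.smul_def]; exact hez
  have hz' : x ^ 2 - algebraMap B (integralClosure B L) s * x =
      algebraMap B (integralClosure B L) w * z := by
    rw [← Algebra.smul_def, ← Algebra.smul_def]; exact hz
  have hxe : x = algebraMap B (integralClosure B L) s * e +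
      algebraMap B (integralClosure B L) w * z' := by linear_combination hez'
  have key : (s ^ 2) • (e ^ 2 - e) = w • (z - 2 * algebraMap B _ s * e * z'
      - algebraMap B _ w * z' ^ 2 + algebraMap B _ s * z') := by
    rw [Algebra.smul_def, Algebra.smul_def, map_pow]
    rw [hxe] at hz'
    linear_combination hz'
  exact (mem_span_smul_top_iff _).mp
    (smul_mem_smul_top_imp K hw hs2 _ ((mem_span_smul_top_iff _).mpr ⟨_, key⟩))

/-- **b4, global form.**  Let `B` be a noetherian integrally closed domain, `w ∈ B` a prime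
element with `B / w` a Dedekind domain, `L` a finite separable extension of `K = Frac B` which
is unramified at all height one primes of `B`, and `B'` the integral closure of `B` in `L`.
If `x ∈ B'` and `s ∈ B ∖ (w)` satisfy `x ^ 2 ≡ s x` modulo `w B'` (i.e. `x / s` is an idempotent
of `B'_(w) / w`), then there is `e ∈ B'` with `x ≡ s e` and `e ^ 2 ≡ e` modulo `w B'`. -/
theorem exists_lift_global {w : B} (hw : Prime w) [IsDedekindDomain (B ⧸ Ideal.span {w})]
    (hU : ∀ 𝔭 : Ideal B, 𝔭.IsPrime → 𝔭 ≠ ⊥ → 𝔭.height ≤ 1 →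
      HasUnitDiscrAt B K L (Module.finrank K L) 𝔭)
    (s : B) (hs : ¬ w ∣ s) (x : integralClosure B L)
    (hx : ∃ z : integralClosure B L, x ^ 2 - s • x = w • z) :
    ∃ e : integralClosure B L, (∃ z' : integralClosure B L, x - s • e = w • z') ∧
      ∃ z'' : integralClosure B L, e ^ 2 - e = w • z'' := by
  -- the ideal of denominators
  let I : Ideal B :=
    { carrier := {u | ∃ e z' : integralClosure B L, u • x - s • e = w • z'}
      add_mem' := by
        rintro u₁ u₂ ⟨e₁, z₁, h₁⟩ ⟨e₂, z₂, h₂⟩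
        refine ⟨e₁ + e₂, z₁ + z₂, ?_⟩
        rw [add_smul, smul_add, smul_add, ← h₁, ← h₂]
        abel
      zero_mem' := ⟨0, 0, by simp⟩
      smul_mem' := by
        rintro a u ⟨e, z', h⟩
        refine ⟨a • e, a • z', ?_⟩
        rw [smul_eq_mul, mul_smul, smul_comm s a e, ← smul_sub, h, smul_comm] }
  have hwI : w ∈ I := ⟨0, x, by simp⟩
  have hI : I = ⊤ := by
    by_contra hne
    obtain ⟨𝔪, h𝔪, hle⟩ := Ideal.exists_le_maximal I hne
    obtain ⟨u, hu, e, z', h⟩ := exists_lift_at_maximal B K L 𝔪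
      (Localization.subalgebra.ofField K 𝔪.primeCompl (Ideal.primeCompl_le_nonZeroDivisors 𝔪))
      hw (hle hwI) hU s hs x hx
    exact hu (hle ⟨e, z', h⟩)
  have h1 : (1 : B) ∈ I := by rw [hI]; exact Submodule.mem_top
  obtain ⟨e, z', hez⟩ := h1
  rw [one_smul] at hez
  exact ⟨e, ⟨z', hez⟩, sq_sub_self_of_lift B K L hw s hs x e hx ⟨z', hez⟩⟩

end Global

end Fermat.Agent.S18.H298
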